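import Fermat.Agent.ResidualThree.CubicDescent.TransferLevels
import Fermat.Agent.WeightOneLift.TestCharacters.Statement

/-!
# The levels and the functions of test characters

The test characters are functions of a deep congruence level; below them are functions matching
them, a convolution at the split places and a given one at the others.
-/

noncomputable section

open IsDedekindDomain NumberField
open scoped WithZero
open Fermat.Agent.ResidualThree
open Fermat.Agent.ResidualThree.Orbital (below Over comapPlace comapOver baseGL IsStableLevel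
  overFinset)

namespace Fermat.Agent.WeightOneLift

variable {K L : Type} [Field K] [NumberField K] [Field L] [NumberField L] [Algebra K L]
  {τ : Orbital.CubicAut K L} {S : Finset (FPlace L)} (D : CharData τ S)

omit [NumberField K] in
/-- The functions of the family are invariant on both sides under their level. -/
theorem CharData.fam_bi {w : FPlace L} (hw : w ∈ S) :
    ∀ j₁ ∈ congSubgroup w (D.E w), ∀ j₂ ∈ congSubgroup w (D.E w), ∀ x,
      D.fam w (j₁ * x * j₂) = D.fam w x := by
  intro j₁ h₁ j₂ h₂ x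
  classical
  have hle := congSubgroup_antitone w (D.le_E w hw)
  have hle' := congSubgroup_antitone w (Nat.le_add_right (D.n w) (Tree.threeLev w))
  simp only [CharData.fam, Tree.congInd, Subgroup.mul_mem_cancel_right _ (hle h₂),
    Subgroup.mul_mem_cancel_left _ (hle h₁)]
  by_cases hx : x ∈ congSubgroup w (D.n w + Tree.threeLev w)
  · rw [D.mul w hw _ (mul_mem (hle' (hle h₁)) (hle' hx)) _ (hle' (hle h₂)),
      D.mul w hw _ (hle' (hle h₁)) _ (hle' hx), D.ker w hw _ h₁, D.ker w hw _ h₂, one_mul, mul_one]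
  · rw [if_neg hx, mul_zero, mul_zero]

omit [NumberField K] in
/-- The functions of the family are supported on their congruence subgroup. -/
theorem CharData.fam_ne_zero {w : FPlace L} {x : GLv w} (hx : D.fam w x ≠ 0) :
    x ∈ congSubgroup w (D.n w + Tree.threeLev w) := by
  classical
  by_contra h
  exact hx (by rw [CharData.fam, Tree.congInd, if_neg h, mul_zero])

omit [NumberField K] in
/-- The functions of the family have finite support modulo their level. -/
theorem CharData.fam_fin (w : FPlace L) :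
    {q : GLv w ⧸ congSubgroup w (D.E w) | D.fam w q.out ≠ 0}.Finite := by
  classical
  set H := congSubgroup w (D.n w + Tree.threeLev w)
  have := finite_quotient_cong w (D.E w) (congSubgroup_le_max w (D.n w + Tree.threeLev w))
  refine (Set.finite_range fun q : H ⧸ (congSubgroup w (D.E w)).subgroupOf H =>
    ((q.out : GLv w) : GLv w ⧸ congSubgroup w (D.E w))).subset fun q hq => ?_
  refine ⟨((⟨q.out, D.fam_ne_zero hq⟩ : H) : H ⧸ (congSubgroup w (D.E w)).subgroupOf H), ?_⟩
  obtain ⟨j, hj⟩ := QuotientGroup.mk_out_eq_mul ((congSubgroup w (D.E w)).subgroupOf H)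
    ⟨q.out, D.fam_ne_zero hq⟩
  show (((Quotient.out _ : H) : GLv w) : GLv w ⧸ congSubgroup w (D.E w)) = q
  rw [hj, Subgroup.coe_mul, QuotientGroup.mk_mul_of_mem _ (Subgroup.mem_subgroupOf.1 j.2)]
  exact QuotientGroup.out_eq' q

omit [NumberField K] in
/-- The product of the functions of the family is a Hecke function. -/
theorem CharData.isHeckeFn_prod {UL : Level L} (hUL : ∀ w ∈ S, UL.J w = congSubgroup w (D.E w)) :
    IsHeckeFn (levelAt UL S)
      fun z : placeSubgroup S => ∏ w ∈ S, D.fam w (((z : Gf L) : ∀ v, GLv v) w) where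
  bi j₁ h₁ j₂ h₂ x := Finset.prod_congr rfl fun w hw => by
    refine D.fam_bi hw _ ?_ _ ?_ _
    · rw [← hUL w hw]; exact mem_levelAt.1 h₁ w hw
    · rw [← hUL w hw]; exact mem_levelAt.1 h₂ w hw
  fin := by
    classical
    let f : placeSubgroup S ⧸ levelAt UL S → ∀ w : S, GLv w.1 ⧸ congSubgroup w.1 (D.E w.1) :=
      fun q w => (((q.out : Gf L) : ∀ v, GLv v) w.1 : GLv w.1 ⧸ congSubgroup w.1 (D.E w.1))
    have hf : Function.Injective f := fun a b h => by
      rw [← QuotientGroup.out_eq' a, ← QuotientGroup.out_eq' b, QuotientGroup.eq]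
      refine mem_levelAt.2 fun w hw => ?_
      rw [hUL w hw]
      exact QuotientGroup.eq.1 (congrFun h ⟨w, hw⟩)
    refine ((Set.Finite.pi' fun w : S => D.fam_fin w.1).preimage hf.injOn).subset fun q hq w => ?_
    show D.fam w.1 (f q w).out ≠ 0
    obtain ⟨j, hj⟩ := QuotientGroup.mk_out_eq_mul (congSubgroup w.1 (D.E w.1))
      (((q.out : Gf L) : ∀ v, GLv v) w.1)
    rw [show (f q w).out = _ from hj, ← one_mul (((q.out : Gf L) : ∀ v, GLv v) w.1),
      D.fam_bi w.2 1 (one_mem _) j j.2]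
    exact Finset.prod_ne_zero_iff.1 hq w.1 w.2

omit [NumberField K] in
/-- The level of the family is stable under the automorphism. -/
theorem CharData.isStableLevel_congLevel (hS : ∀ w, comapPlace τ.σ.toRingEquiv w ∈ S ↔ w ∈ S) :
    IsStableLevel τ.σ.toRingEquiv (levelOn S D.E) := by
  intro w g hg
  by_cases hw : w ∈ S
  · rw [levelOn_mem hw]
    rw [levelOn_mem ((hS w).2 hw), D.E_comap] at hg
    exact localAutGL_mem_cong _ w hg
  · rw [levelOn_not hw]
    rw [levelOn_not fun h => hw ((hS w).1 h)] at hg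
    exact Orbital.localAutGL_mem_max _ w hg

/-- The places over a split place have one trivialising level. -/
theorem CharData.E_over {v : FPlace K} (h3 : Nat.card (Over L v) ≠ 1) (w u : Over L v) :
    D.E u.1 = D.E w.1 := by
  obtain ⟨i, rfl⟩ := (Orbital.bijective_overTriple τ h3 w).2 u
  fin_cases i
  · rfl
  · exact D.E_comap w.1
  · exact (D.E_comap _).trans (D.E_comap w.1)

/-- Functions on the base matching a test character at a place which does not split. -/
def CharMatching : Prop :=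
  ∀ {K L : Type} [Field K] [NumberField K] [Field L] [NumberField L] [Algebra K L]
    (τ : Orbital.CubicAut K L) {v : FPlace K} (w₀ : Over L v) (huniq : ∀ w : Over L v, w = w₀)
    (n E : ℕ), Tree.threeLev w₀.1 < n → n + Tree.threeLev w₀.1 ≤ E →
    ∀ χ : GLv w₀.1 → ℂ,
      (∀ g ∈ congSubgroup w₀.1 n, ∀ h ∈ congSubgroup w₀.1 n, χ (g * h) = χ g * χ h) →
      (∀ g ∈ congSubgroup w₀.1 E, χ g = 1) →
      (∀ g ∈ congSubgroup w₀.1 n,
        letI := Tree.baseAlgebra w₀.1 w₀.2
        χ (Tree.sigmaGL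
          (Tree.sigmaLocal τ w₀.1 w₀.2 (Tree.comapPlace_eq_self τ w₀ huniq)) g) = χ g) →
      ∃ d : ℕ, ∀ (UL : Level L) (UK : Level K) (fL : ∀ w : FPlace L, GLv w → ℂ),
        UL.J w₀.1 = congSubgroup w₀.1 E → UK.J v = congSubgroup v d →
        (∀ g, fL w₀.1 g = χ g * Tree.congInd w₀.1 (n + Tree.threeLev w₀.1) g) →
        ∃ fK : GLv v → ℂ,
          (∀ j₁ ∈ UK.J v, ∀ j₂ ∈ UK.J v, ∀ x, fK (j₁ * x * j₂) = fK x) ∧
          {q : GLv v ⧸ UK.J v | fK q.out ≠ 0}.Finite ∧ Orbital.LocalMatch τ UL UK v fL fK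

/-- The characters at a fixed place are invariant. -/
theorem CharData.invariant_single {v : FPlace K} (w₀ : Over L v)
    (huniq : ∀ w : Over L v, w = w₀) (hw : w₀.1 ∈ S) (g : GLv w₀.1)
    (hg : g ∈ congSubgroup w₀.1 (D.n w₀.1)) :
    letI := Tree.baseAlgebra w₀.1 w₀.2
    D.χ w₀.1 (Tree.sigmaGL
      (Tree.sigmaLocal τ w₀.1 w₀.2 (Tree.comapPlace_eq_self τ w₀ huniq)) g) = D.χ w₀.1 g := by
  let := Tree.baseAlgebra w₀.1 w₀.2
  let x : Orbital.Gover L v := fun u => (huniq u).symm ▸ g
  have hx0 : x w₀ = g := rfl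
  have key : ∀ u : Over L v, x u ∈ congSubgroup u.1 (D.n u.1) ∧
      D.χ u.1 (x u) = D.χ w₀.1 g := fun u => by
    obtain rfl := huniq u
    exact ⟨hg, rfl⟩
  have h := D.equivariant w₀.1 hw (x (comapOver τ.σ w₀))
    (D.n_comap w₀.1 ▸ (key (comapOver τ.σ w₀)).1)
  rw [← hx0, ← Tree.autOver_single τ w₀ huniq x, hx0]
  exact h.trans (key (comapOver τ.σ w₀)).2

/-- At every bad place some level below carries matching functions. -/
theorem CharData.exists_match (hmatch : CharMatching)
    (hdeg : Module.finrank K L = 3) (v : FPlace K) (hv : ∀ w : Over L v, w.1 ∈ S) :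
    ∃ d : ℕ, ∀ (UL : Level L) (UK : Level K), (∀ w ∈ S, UL.J w = congSubgroup w (D.E w)) →
      UK.J v = congSubgroup v d → ∃ fK : GLv v → ℂ,
        (∀ j₁ ∈ UK.J v, ∀ j₂ ∈ UK.J v, ∀ x, fK (j₁ * x * j₂) = fK x) ∧
        {q : GLv v ⧸ UK.J v | fK q.out ≠ 0}.Finite ∧
        Orbital.LocalMatch τ UL UK v D.fam fK := by
  classical
  obtain ⟨w₀⟩ := Orbital.nonempty_over L v
  by_cases h1 : Nat.card (Over L v) = 1
  · have hu : ∀ w : Over L v, w = w₀ := fun w => Orbital.eq_of_card_over_eq_one h1 w₀ w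
    obtain ⟨d, hd⟩ := hmatch τ w₀ hu (D.n w₀.1) (D.E w₀.1) (D.lt_n _ (hv w₀)) (D.le_E _ (hv w₀))
      (D.χ w₀.1) (D.mul _ (hv w₀)) (D.ker _ (hv w₀))
      (D.invariant_single w₀ hu (hv w₀))
    exact ⟨d, fun UL UK hUL hUK => hd UL UK D.fam (hUL _ (hv w₀)) hUK fun _ => rfl⟩
  · have h3 := Orbital.card_over_eq_three τ h1
    refine ⟨D.E w₀.1, fun UL UK hUL hUK => ?_⟩
    have hJ : ∀ (w : Over L v) (x : GLv v), baseGL w.1 w.2 x ∈ UL.J w.1 ↔ x ∈ UK.J v :=
      fun w x => by
        rw [hUL _ (hv w), hUK, D.E_over h1 w₀ w]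
        exact baseGL_mem_cong_iff τ hdeg h3 w _ x
    let g : Over L v → GLv v → ℂ := fun w x => D.fam w.1 (baseGL w.1 w.2 x)
    have hbi : ∀ w, ∀ j₁ ∈ UK.J v, ∀ j₂ ∈ UK.J v, ∀ x, g w (j₁ * x * j₂) = g w x :=
      fun w j₁ h₁ j₂ h₂ x => by
        show D.fam w.1 _ = D.fam w.1 _
        rw [map_mul, map_mul]
        refine D.fam_bi (hv w) _ ?_ _ ?_ _
        · rw [← hUL _ (hv w)]; exact (hJ w _).2 h₁
        · rw [← hUL _ (hv w)]; exact (hJ w _).2 h₂
    have hfin : ∀ w, {q : GLv v ⧸ UK.J v | g w q.out ≠ 0}.Finite := fun w => by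
      let ι : GLv v ⧸ UK.J v → GLv w.1 ⧸ congSubgroup w.1 (D.E w.1) := fun q =>
        QuotientGroup.mk (baseGL w.1 w.2 q.out)
      have hι : Function.Injective ι := fun a b h => by
        have h' := QuotientGroup.eq.1 h
        rw [← map_inv, ← map_mul, ← hUL _ (hv w), hJ] at h'
        rw [← QuotientGroup.out_eq' a, ← QuotientGroup.out_eq' b, QuotientGroup.eq]
        exact h'
      refine ((D.fam_fin w.1).preimage hι.injOn).subset fun q hq => ?_
      show D.fam w.1 (ι q).out ≠ 0
      obtain ⟨j, hj⟩ := QuotientGroup.mk_out_eq_mul (congSubgroup w.1 (D.E w.1))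
        (baseGL w.1 w.2 q.out)
      rw [show (ι q).out = _ from hj, ← one_mul (baseGL w.1 w.2 q.out),
        D.fam_bi (hv w) 1 (one_mem _) j j.2]
      exact hq
    exact ⟨Orbital.conv3 v UK (g w₀) (g (comapOver τ.σ w₀)) (g (comapOver τ.σ (comapOver τ.σ w₀))),
      fun j₁ h₁ j₂ h₂ x => Orbital.conv3_biinvariant (hbi w₀) (hbi _) (hbi _) h₁ h₂ x,
      Orbital.conv3_finite_support (hbi _) (hbi _) (hfin _) (hfin _) (hfin _),
      Orbital.localMatch_split τ UL UK _ _ h3 w₀ _ _ _ hJ (hbi w₀) (hbi (comapOver τ.σ w₀))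
        (hbi (comapOver τ.σ (comapOver τ.σ w₀))) (hfin w₀) (hfin (comapOver τ.σ w₀))
        (fun _ => rfl) (fun _ => rfl) (fun _ => rfl) fun _ => rfl⟩

end Fermat.Agent.WeightOneLift
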