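import Fermat.Agent.ResidualThree.CubicDescent.TransferTrace
import Fermat.Agent.WeightOneLift.CubicDescent.Levels

/-!
# From a form over the cubic extension to a form over the base, any ramification

The test characters give a twisted trace over `L` which does not vanish; the comparison with the
trace over `K` gives a system over `K` below that of the form.
-/

noncomputable section

open IsDedekindDomain NumberField MeasureTheory
open scoped WithZero ComplexConjugate
open Fermat.Agent.ResidualThree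
open Fermat.Agent.ResidualThree.Orbital (below Over overFinset comapPlace)

namespace Fermat.Agent.WeightOneLift

variable {K L : Type} [Field K] [NumberField K] [Field L] [NumberField L] [Algebra K L]
  [IsTotallyComplex K] [IsTotallyComplex L] {τ : Orbital.CubicAut K L} {BadK : Finset (FPlace K)}

/-- **The transfer**, from a non-zero form over `L` of invariant eigenvalues. -/
theorem exists_form_below_of_testCharacters (htest : TestCharactersExist τ) (hmatch : CharMatching)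
    (hspecL : SpectralTrace L) (hspecK : SpectralTrace K) [IsPrincipalIdealRing (𝓞 K)]
    (hnp : Orbital.NormPrinciple τ) (hK2 : Module.finrank ℚ K = 2) (hdeg : Module.finrank K L = 3)
    (hunr : ∀ v ∉ BadK, Nat.card (Over L v) = 3 ∨
      ∃ w : Over L v, (∀ w' : Over L v, w' = w) ∧ Orbital.ram K w.1 = 1)
    (a₀ : FPlace L → ℂ)
    (ha : ∀ w, a₀ (comapPlace τ.σ.toRingEquiv w) = a₀ w)
    (htrip : {v : FPlace K | v ∉ BadK ∧ Nat.card (Over L v) = 3 ∧
      ∀ w : Over L v, a₀ w.1 ≠ 0}.Infinite)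
    (hkill : ∀ M : ℕ, 0 < M → ∃ (p : ℕ) (v : FPlace K), p.Prime ∧ (p : ZMod M) = -1 ∧
      v ∉ BadK ∧ Nat.card (Over L v) = 3 ∧
      (∀ w : FPlace L, below K w = v → a₀ w = 0 ∧
        w.valuation L (p : L) = WithZero.exp (-1 : ℤ)) ∧
      (∀ w : FPlace L, below K w ≠ v → w.valuation L (p : L) = 1) ∧
      ∀ u : FPlace K, u ≠ v → u.valuation K (p : K) = 1)
    {θ : Gf L → Hyp L → ℂ} (hθ : IsEigenForm (overFinset L BadK : Set (FPlace L)) a₀ θ)
    (hθ0 : θ ≠ 0) :
    ∃ (a : FPlace K → ℂ) (UK : Level K) (φ : Gf K → Hyp K → ℂ),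
      (∀ v ∉ BadK, UK.J v = maxSubgroup v) ∧ φ ∈ levelForms BadK a UK ∧ φ ≠ 0 ∧
      ∀ v ∉ BadK, ∀ w : Over L v, bcEigen L v (a v) = a₀ w.1 := by
  classical
  set BadL := overFinset L BadK with hBadLdef
  have hbad : ∀ w, w ∈ BadL ↔ below K w ∈ BadK := fun w => Orbital.mem_overFinset
  have hstabS : ∀ w, comapPlace τ.σ.toRingEquiv w ∈ BadL ↔ w ∈ BadL := fun w => by
    rw [hbad, hbad, Orbital.below_comapPlace τ.σ w]
  obtain ⟨D, hD⟩ := htest BadL hstabS a₀ ha θ hθ hθ0
  set UL := levelOn BadL D.E with hULdef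
  have hULJ : ∀ w ∈ BadL, UL.J w = congSubgroup w (D.E w) := fun w hw => levelOn_mem hw
  have hd : ∀ v, ∃ d : ℕ, v ∈ BadK → ∀ (UL : Level L) (UK : Level K),
      (∀ w ∈ BadL, UL.J w = congSubgroup w (D.E w)) → UK.J v = congSubgroup v d →
      ∃ fK : GLv v → ℂ, (∀ j₁ ∈ UK.J v, ∀ j₂ ∈ UK.J v, ∀ x, fK (j₁ * x * j₂) = fK x) ∧
        {q : GLv v ⧸ UK.J v | fK q.out ≠ 0}.Finite ∧ Orbital.LocalMatch τ UL UK v D.fam fK :=
    fun v => by
      by_cases hv : v ∈ BadK
      · obtain ⟨d, hd⟩ := D.exists_match hmatch hdeg v fun w => (hbad w.1).2 (w.2.symm ▸ hv)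
        exact ⟨d, fun _ => hd⟩
      · exact ⟨0, fun h => absurd h hv⟩
  choose dK hdK using hd
  set UK := levelOn BadK dK with hUKdef
  have hUL : ∀ w ∉ BadL, UL.J w = maxSubgroup w := fun w hw => levelOn_not hw
  have hUK : ∀ v ∉ BadK, UK.J v = maxSubgroup v := fun v hv => levelOn_not hv
  have hfBK : ∀ v, ∃ f : GLv v → ℂ, v ∈ BadK →
      (∀ j₁ ∈ UK.J v, ∀ j₂ ∈ UK.J v, ∀ x, f (j₁ * x * j₂) = f x) ∧
        {q : GLv v ⧸ UK.J v | f q.out ≠ 0}.Finite ∧ Orbital.LocalMatch τ UL UK v D.fam f :=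
    fun v => by
      by_cases hv : v ∈ BadK
      · obtain ⟨f, hf⟩ := hdK v hv UL UK hULJ (levelOn_mem hv)
        exact ⟨f, fun _ => hf⟩
      · exact ⟨0, fun h => absurd h hv⟩
  choose fBK hfBK using hfBK
  have hh := D.isHeckeFn_prod hULJ
  obtain ⟨a, φ, hφ, hφ0, hbc⟩ := exists_form_below_of_trace hspecL hspecK hnp hK2 hdeg hunr a₀ ha
    htrip hkill (D.isStableLevel_congLevel hstabS) hUL hUK
    (fun w hw => by rw [hULJ w hw]; exact D.fam_bi hw)
    (fun w hw => by rw [hULJ w hw]; exact D.fam_fin w)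
    (fun v hv => (hfBK v hv).1) (fun v hv => (hfBK v hv).2.1) (fun v hv => (hfBK v hv).2.2)
    subset_rfl hh (fun u hu z => u.monoWith_fin_apply hUL hu _ _ z)
    (fun u hu y hy w hw => u.monoWith_fin_support hUL hu _ _ y hy w hw)
    (fun hFD => hD UL hULJ hUL hFD _ hh fun _ => rfl)
  exact ⟨a, UK, φ, hUK, hφ, hφ0, hbc⟩

end Fermat.Agent.WeightOneLift
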