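import Fermat.Agent.ResidualThree.CubicDescent.SpectralForms
import Fermat.Agent.ResidualThree.CubicDescent.Transfer
import Fermat.Agent.WeightOneLift.CubicDescent.Trace
import Fermat.Agent.WeightOneLift.Defs

/-!
# The cubic transfer for an arbitrary representation

The form over the cubic extension with the traces of the lifted representation descends to a form
over `ℚ(√-3)`, given the test characters and their matching.
-/

noncomputable section

open IsDedekindDomain NumberField
open scoped WithZero
open Fermat.Agent.ResidualThree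

namespace Fermat.Agent.WeightOneLift

local notation "Qbar" => AlgebraicClosure ℚ
local notation "Γℚ" => (AlgebraicClosure ℚ ≃ₐ[ℚ] AlgebraicClosure ℚ)

/-- **The cubic transfer with any ramification**. -/
theorem surjectiveTransfer_of (hθex : ThetaExistence) (hmatch : CharMatching)
    (htest : ∀ {K L : Type} [Field K] [NumberField K] [Field L] [NumberField L] [Algebra K L]
      [IsTotallyComplex L] (τ : Orbital.CubicAut K L),
        TestCharactersExist τ) : SurjectiveTransfer := by
  classical
  intro ρ hc hs hd K _ hK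
  obtain ⟨htcK, hK2, L, _, _, τ, htcL, hL3, hL, hP, -⟩ := exists_genPlaces hc hs hd K hK
  obtain ⟨Eis⟩ := BianchiForm.exists_eisField K hK
  have hpid := Eis.isPrincipalIdealRing
  have hnp : Orbital.NormPrinciple τ := normPrinciple_of_quad hL3 hK
  set BadK := hP.finite_ram.toFinset with hBadK
  have hmem : ∀ v, v ∈ BadK ↔ RamifiesAt ρ K v := fun v => hP.finite_ram.mem_toFinset
  -- the form over `L`
  obtain ⟨U', θ, hθa, hθc, hθs, ⟨x₀, p₀, hθ0⟩, hθb, hθg⟩ := hθex ρ hc hs hd L hL
  have hgood : ∀ w ∉ Orbital.overFinset L BadK,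
      U'.J w = maxSubgroup w ∧ HasEigenvalue w (frobTrace ρ L w) θ := by
    intro w hw
    have hnr : ¬ RamifiesAt ρ L w := fun h =>
      hw (Orbital.mem_overFinset.2 ((hmem _).2 (hP.ramifies_below w h)))
    obtain ⟨hJ, heig⟩ := hθg w (unram_of_not_ramifies hnr)
    obtain ⟨A, σ, hA, hσL, hσ⟩ := hP.exists_frobenius w
    refine ⟨hJ, ?_⟩
    rw [hP.trace_eq w hnr A hA σ hσL hσ]
    exact heig A hA σ hσL hσ
  have hθ : IsEigenForm (Orbital.overFinset L BadK : Set (FPlace L)) (frobTrace ρ L) θ :=
    ⟨⟨U', hθa, fun w hw => (hgood w (by simpa using hw)).1⟩, hθc, hθs, hθb,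
      fun w hw => (hgood w (by simpa using hw)).2⟩
  obtain ⟨a, UK, φ, hUK, hφ, hφ0, hbc⟩ := exists_form_below_of_testCharacters (htest τ) hmatch
    spectralTrace spectralTrace hnp hK2 hL3
    (fun v hv => hP.unramified v fun h => hv ((hmem v).2 h)) (frobTrace ρ L) hP.trace_comap
    (infinite_good_triples hP) (exists_killPrime hP) hθ fun h => hθ0 (by simp [h])
  refine ⟨UK, φ, hφ.2, hφ.1.cuspidal, hφ.1.spectral, ?_, hφ.1.bounded, fun v hv => ?_⟩
  · by_contra h
    push Not at h
    exact hφ0 (funext fun x => funext fun p => h x p)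
  · have hnr : ¬ RamifiesAt ρ K v := not_ramifies_of_unram hv
    have hB : v ∉ BadK := fun h => hnr ((hmem v).1 h)
    obtain ⟨k, hk, hkey⟩ := hP.base_change v hnr (a v) fun w => hbc v hB w
    refine ⟨hUK v hB, k, hkey.1, ?_, hkey.2⟩
    rw [← hk]
    exact hφ.1.eigen v (by simpa using hB)

end Fermat.Agent.WeightOneLift
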