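import Fermat.Agent.ResidualThree.ThetaInduction.Main
import Fermat.Agent.ResidualThree.Tree.TransferLevel
import Fermat.Agent.WeightOneLift.CubicDescent.Transfer
import Fermat.Agent.WeightOneLift.TestCharacters.Final

/-!
# The cubic transfer for every surjective representation
-/

noncomputable section

open IsDedekindDomain NumberField
open Fermat.Agent.ResidualThree

namespace Fermat.Agent.WeightOneLift

/-- Test characters match at the places which do not split. -/
theorem charMatching : CharMatching := by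
  intro K L _ _ _ _ _ τ v w₀ huniq n E hcn hE χ hmul hker hσ
  let := Tree.baseAlgebra w₀.1 w₀.2
  have hχ : Tree.IsPlaceChar w₀.1 w₀.2 τ (Tree.comapPlace_eq_self τ w₀ huniq) n E χ :=
    ⟨hmul, fun s => hker _ (Tree.scalar_mem_congZ s E), fun g _ hg => hker g hg, hσ⟩
  refine ⟨E + 2 * Tree.threeLev w₀.1 + n, fun UL UK fL hUL hUK hfL => ?_⟩
  have hJ : UK.J v ≤ Tree.baseLevel w₀.1 w₀.2 (E + 2 * Tree.threeLev w₀.1 + n) :=
    hUK ▸ Tree.congSubgroup_le_baseLevel w₀.1 w₀.2 _
  exact ⟨Tree.charLevelWeight w₀.1 w₀.2 τ (Tree.comapPlace_eq_self τ w₀ huniq) n χ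
      (UL.J w₀.1) (UK.J v),
    fun j₁ h₁ j₂ h₂ x =>
      Tree.charLevelWeight_biinvariant w₀.1 w₀.2 τ _ hcn hχ _ _ hJ h₁ h₂ x,
    Tree.charLevelWeight_finite_support w₀.1 w₀.2 τ _ hcn χ _ _ (UK.exists_cong v),
    Tree.localMatch_char τ w₀ huniq n E hcn χ hχ UL UK
      (hUL ▸ congSubgroup_antitone w₀.1 hE)
      (hJ.trans (Tree.baseLevel_antitone w₀.1 w₀.2 (by omega))) fL _ hfL fun _ => rfl⟩

/-- **The cubic transfer**. -/
theorem surjectiveTransfer : SurjectiveTransfer :=
  surjectiveTransfer_of ThetaInduction.thetaExistence charMatching fun τ => testCharactersExist τ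

end Fermat.Agent.WeightOneLift
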